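import Mathlib
import Fermat.Prelude.Def_ModularCurve_HeckeOperatorTotal
import Fermat.Agent.S24.FiniteFibres
import Fermat.Agent.S24.FFGenus
import Fermat.Agent.S24.FFPrincipalAbs
import Fermat.Prelude.Thm_ModularCurve_coeffMap_qExpand

/-!
# S37 (E1), modular side: the finiteness / integrality inputs of the Hecke correspondence

For every `N`, `ℓ` (nonzero) the two degeneracy maps `α, β : F_N → F_{Nℓ}` over `K = ℚ̄` are
finite (hence integral), and every `F_M` has principal divisors.
-/

set_option autoImplicit false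

namespace Fermat.Agent.S37.HeckeInputs

open AlgebraicCurve IntermediateField ModularCurve
open Fermat.Agent.S24 Fermat.Agent.S24.BridgeInv Fermat.Agent.S24.PlaceAt

noncomputable section

section Generic

variable {K F F' : Type*} [Field K] [Field F] [Field F'] [Algebra K F] [Algebra K F']

/-- If `F'` is finite over `K(φ x)` for some `x : F`, then `F'` is finite over `F` along `φ`. -/
theorem finiteAlong_of_finiteDimensional (φ : F →ₐ[K] F') (x : F)
    [FiniteDimensional K⟮φ x⟯ F'] : FiniteAlong K φ := by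
  let _ := algebraAlong φ
  show Module.Finite F F'
  have hle : K⟮φ x⟯ ≤ φ.fieldRange := by
    rw [IntermediateField.adjoin_le_iff]
    rintro _ rfl
    exact ⟨x, rfl⟩
  obtain ⟨s, hs⟩ := (Module.finite_def (R := K⟮φ x⟯) (M := F')).mp inferInstance
  refine ⟨⟨s, ?_⟩⟩
  have key : ∀ y ∈ Submodule.span K⟮φ x⟯ (s : Set F'), y ∈ Submodule.span F (s : Set F') := by
    intro y hy
    induction hy using Submodule.span_induction with
    | mem z hz => exact Submodule.subset_span hz
    | zero => exact zero_mem _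
    | add a b _ _ ha hb => exact add_mem ha hb
    | smul c z _ hz =>
      obtain ⟨d, hd⟩ := hle c.2
      have : c • z = d • z := by
        rw [Algebra.smul_def, Algebra.smul_def]
        congr 1
        exact hd.symm
      rw [this]
      exact Submodule.smul_mem _ _ hz
  rw [eq_top_iff]
  intro y _
  exact key y (hs ▸ Submodule.mem_top)

theorem isIntegral_of_finiteAlong (φ : F →ₐ[K] F') (h : FiniteAlong K φ) :
    φ.toRingHom.IsIntegral := by
  let _ := algebraAlong φ
  have : Module.Finite F F' := h
  intro y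
  exact Algebra.IsIntegral.isIntegral (R := F) y

end Generic

section Modular

/-- Every `F_M` over `ℚ̄` has principal divisors (of degree zero). -/
theorem hasPrincipalDivisors_bar (M : ℕ) [NeZero M] : HasPrincipalDivisors Kbar (FF M) :=
  FFPrin.hasPrincipalDivisors_of
    (fun v => FFGenus.deg_eq_one (J M) (FiniteFibres.transcendental_J M) v)
    (FFGenus.zeros_finite' (J M) (FiniteFibres.transcendental_J M))
    (FFGenus.sum_ord_zeros' (J M) (FiniteFibres.transcendental_J M))

variable (N ℓ : ℕ) [NeZero N] [NeZero ℓ]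

theorem heckeAlphaBar_J : heckeAlphaBar Kbar N ℓ (J N) = J (N * ℓ) := by
  apply Subtype.ext
  rw [coe_heckeAlphaBar]
  rfl

theorem heckeBetaBar_J :
    heckeBetaBar Kbar N ℓ (J N) = Jd (N * ℓ) ℓ (dvd_mul_left ℓ N) := by
  apply Subtype.ext
  rw [coe_heckeBetaBar, coe_Jd, coe_Jd, qExpand_one_apply, coeffEmb, coeffMap_qExpand]

theorem transcendental_Jd_ell : Transcendental Kbar (Jd (N * ℓ) ℓ (dvd_mul_left ℓ N)) := by
  rw [← heckeBetaBar_J]
  intro h
  exact FiniteFibres.transcendental_J N
    ((isAlgebraic_algHom_iff (heckeBetaBar Kbar N ℓ) (heckeBetaBar Kbar N ℓ).injective).mp h)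

theorem finiteAlong_alpha : FiniteAlong Kbar (heckeAlphaBar Kbar N ℓ) := by
  have : FiniteDimensional Kbar⟮heckeAlphaBar Kbar N ℓ (J N)⟯ (FF (N * ℓ)) := by
    rw [heckeAlphaBar_J]
    infer_instance
  exact finiteAlong_of_finiteDimensional (heckeAlphaBar Kbar N ℓ) (J N)

theorem finiteAlong_beta : FiniteAlong Kbar (heckeBetaBar Kbar N ℓ) := by
  have : FiniteDimensional Kbar⟮heckeBetaBar Kbar N ℓ (J N)⟯ (FF (N * ℓ)) := by
    rw [heckeBetaBar_J]
    exact FFGenus.finiteDimensional_of (J (N * ℓ)) (FiniteFibres.transcendental_J (N * ℓ))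
      _ (transcendental_Jd_ell N ℓ)
  exact finiteAlong_of_finiteDimensional (heckeBetaBar Kbar N ℓ) (J N)

theorem heckeAlphaBarIntegral : HeckeAlphaBarIntegral Kbar N ℓ :=
  isIntegral_of_finiteAlong _ (finiteAlong_alpha N ℓ)

theorem heckeBetaBarIntegral : HeckeBetaBarIntegral Kbar N ℓ :=
  isIntegral_of_finiteAlong _ (finiteAlong_beta N ℓ)

end Modular

end

end Fermat.Agent.S37.HeckeInputs
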