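import Mathlib
import Fermat.Agent.S37.HeckeInputs.Basic
import Fermat.Agent.S37.FF.Fundamental

/-!
# S37 (E1): the fundamental identity along the two degeneracy maps `α, β : F_N → F_{Nℓ}`
-/

set_option autoImplicit false

namespace Fermat.Agent.S37.HeckeInputs

open AlgebraicCurve IntermediateField ModularCurve
open Fermat.Agent.S24 Fermat.Agent.S24.BridgeInv Fermat.Agent.S24.PlaceAt

noncomputable section

/-- every place of `F_M` over `ℚ̄` has degree one. -/
theorem deg_eq_one_bar (M : ℕ) [NeZero M] (v : Place Kbar (FF M)) : v.deg = 1 :=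
  FFGenus.deg_eq_one (J M) (FiniteFibres.transcendental_J M) v

/-- separability along any `ℚ̄`-algebra map between characteristic-zero fields that is
algebraic. -/
theorem isSeparable_along {K F F' : Type*} [Field K] [Field F] [Field F'] [Algebra K F]
    [Algebra K F'] [CharZero F] (φ : F →ₐ[K] F') (h : FiniteAlong K φ) :
    letI := algebraAlong φ; Algebra.IsSeparable F F' := by
  let _ := algebraAlong φ
  have : Module.Finite F F' := h
  infer_instance

variable (N ℓ : ℕ) [NeZero N] [NeZero ℓ]

instance : CharZero (FF N) :=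
  charZero_of_injective_algebraMap (algebraMap Kbar (FF N)).injective

theorem fundamentalIdentityAlong_beta :
    haveI := hasPrincipalDivisors_bar (N * ℓ)
    FundamentalIdentityAlong Kbar (heckeBetaBar Kbar N ℓ) (heckeBetaBarIntegral N ℓ) := by
  haveI := hasPrincipalDivisors_bar (N * ℓ)
  exact FF.fundamentalIdentityAlong _ _ (finiteAlong_beta N ℓ)
    (isSeparable_along _ (finiteAlong_beta N ℓ)) (deg_eq_one_bar N) (deg_eq_one_bar (N * ℓ))

theorem fundamentalIdentityAlong_alpha :
    haveI := hasPrincipalDivisors_bar (N * ℓ)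
    FundamentalIdentityAlong Kbar (heckeAlphaBar Kbar N ℓ) (heckeAlphaBarIntegral N ℓ) := by
  haveI := hasPrincipalDivisors_bar (N * ℓ)
  exact FF.fundamentalIdentityAlong _ _ (finiteAlong_alpha N ℓ)
    (isSeparable_along _ (finiteAlong_alpha N ℓ)) (deg_eq_one_bar N) (deg_eq_one_bar (N * ℓ))

end

end Fermat.Agent.S37.HeckeInputs
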