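import Mathlib
import Fermat.Agent.S37.HeckeInputs.Fundamental
import Fermat.Agent.S37.FF.NormFormula

/-!
# S37 (E1): `HeckeInputsAlong ℚ̄ N ℓ` for every level `N` and every `ℓ ≠ 0`

In particular the Prelude's `heckeOperatorAlong ℚ̄ N ℓ` is the genuine Hecke correspondence
`α_* β^*` on `Pic⁰`, not the junk value `0`.
-/

set_option autoImplicit false

namespace Fermat.Agent.S37.HeckeInputs

open AlgebraicCurve IntermediateField ModularCurve
open Fermat.Agent.S24 Fermat.Agent.S24.BridgeInv Fermat.Agent.S24.PlaceAt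

noncomputable section

variable (N ℓ : ℕ) [NeZero N] [NeZero ℓ]

theorem normFormulaAlong_alpha :
    NormFormulaAlong Kbar (heckeAlphaBar Kbar N ℓ) (finiteAlong_alpha N ℓ) :=
  FF.NormFormula.normFormulaAlong _ _

theorem normFormulaAlong_beta :
    NormFormulaAlong Kbar (heckeBetaBar Kbar N ℓ) (finiteAlong_beta N ℓ) :=
  FF.NormFormula.normFormulaAlong _ _

/-- **(E1)** all inputs of the Hecke correspondence `T_ℓ = α_* β^*` on `Pic⁰(F_N)` hold. -/
theorem heckeInputsAlong : HeckeInputsAlong Kbar N ℓ :=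
  ⟨heckeAlphaBarIntegral N ℓ, heckeBetaBarIntegral N ℓ, hasPrincipalDivisors_bar (N * ℓ),
    finiteAlong_alpha N ℓ, fundamentalIdentityAlong_beta N ℓ, normFormulaAlong_alpha N ℓ⟩

/-- the Prelude's total Hecke operator is the genuine correspondence. -/
theorem heckeOperatorAlong_eq_heckePic0Bar :
    haveI := hasPrincipalDivisors_bar (N * ℓ)
    heckeOperatorAlong Kbar N ℓ =
      heckePic0Bar (heckeAlphaBarIntegral N ℓ) (heckeBetaBarIntegral N ℓ)
        (fundamentalIdentityAlong_beta N ℓ) (finiteAlong_alpha N ℓ)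
        (normFormulaAlong_alpha N ℓ) := by
  haveI := hasPrincipalDivisors_bar (N * ℓ)
  exact heckeOperatorAlong_eq _ _ _ _ _

end

end Fermat.Agent.S37.HeckeInputs
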